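import Fermat.Agent.S24.Defs

/-!
# Generic orbit counting for permutations (helper66)

* `numOrbits_toPerm` : orbits of `zpowers (toPerm g)` = orbits of `zpowers g`.
* `prime_mul_numOrbits` : if `π ^ p = 1` (`p` prime) on a finite type then
  `p * numOrbits π = card X + (p - 1) * card (fixedBy X π)`.
-/

set_option autoImplicit false

namespace Fermat.Agent.S24.H66

/-- Orbit relation of the cyclic group generated by a permutation. -/
lemma orbitRel_zpowers_perm_iff {X : Type*} (π : Equiv.Perm X) (a b : X) :
    MulAction.orbitRel (Subgroup.zpowers π) X a b ↔ ∃ k : ℤ, (π ^ k) b = a := by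
  rw [MulAction.orbitRel_apply, MulAction.mem_orbit_iff]
  constructor
  · rintro ⟨⟨g, hg⟩, h⟩
    obtain ⟨k, rfl⟩ := Subgroup.mem_zpowers_iff.mp hg
    exact ⟨k, h⟩
  · rintro ⟨k, h⟩
    exact ⟨⟨π ^ k, Subgroup.zpow_mem_zpowers π k⟩, h⟩

/-- Orbit relation of the cyclic group generated by a group element. -/
lemma orbitRel_zpowers_iff {G X : Type*} [Group G] [MulAction G X] (g : G) (a b : X) :
    MulAction.orbitRel (Subgroup.zpowers g) X a b ↔ ∃ k : ℤ, (g ^ k) • b = a := by
  rw [MulAction.orbitRel_apply, MulAction.mem_orbit_iff]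
  constructor
  · rintro ⟨⟨h, hh⟩, e⟩
    obtain ⟨k, rfl⟩ := Subgroup.mem_zpowers_iff.mp hh
    exact ⟨k, e⟩
  · rintro ⟨k, h⟩
    exact ⟨⟨g ^ k, Subgroup.zpow_mem_zpowers g k⟩, h⟩

lemma toPerm_zpow_apply {G X : Type*} [Group G] [MulAction G X] (g : G) (k : ℤ) (x : X) :
    ((MulAction.toPerm g : Equiv.Perm X) ^ k) x = (g ^ k) • x := by
  have h : (MulAction.toPerm g : Equiv.Perm X) ^ k = MulAction.toPerm (g ^ k) := by
    have := map_zpow (MulAction.toPermHom G X) g k
    simpa [MulAction.toPermHom_apply] using this.symm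
  rw [h, MulAction.toPerm_apply]

/-- The number of orbits of `toPerm g` is the number of orbits of the cyclic subgroup `⟨g⟩`. -/
theorem numOrbits_toPerm {G X : Type*} [Group G] [MulAction G X] (g : G) :
    numOrbits (MulAction.toPerm g : Equiv.Perm X)
      = Nat.card (MulAction.orbitRel.Quotient (Subgroup.zpowers g) X) := by
  unfold numOrbits
  refine Nat.card_congr (Quotient.congrRight ?_)
  intro a b
  rw [orbitRel_zpowers_perm_iff, orbitRel_zpowers_iff]
  simp only [toPerm_zpow_apply]

/-- Fixed points of `toPerm g` are the fixed points of `g`. -/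
lemma fixedBy_toPerm {G X : Type*} [Group G] [MulAction G X] (g : G) :
    MulAction.fixedBy X (MulAction.toPerm g : Equiv.Perm X) = MulAction.fixedBy X g := by
  ext x
  simp [MulAction.mem_fixedBy]

/-- `numOrbits 1 = card X`. -/
lemma numOrbits_one (X : Type*) : numOrbits (1 : Equiv.Perm X) = Nat.card X := by
  unfold numOrbits
  symm
  refine Nat.card_eq_of_bijective (Quotient.mk _) ⟨?_, Quotient.mk_surjective⟩
  intro a b h
  have h' := Quotient.exact h
  change MulAction.orbitRel (Subgroup.zpowers (1 : Equiv.Perm X)) X a b at h'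
  rw [orbitRel_zpowers_perm_iff] at h'
  obtain ⟨k, hk⟩ := h'
  simpa using hk.symm

/-- Burnside for a finite group in `Nat.card` form. -/
lemma sum_card_fixedBy_eq {G X : Type*} [Group G] [MulAction G X] [Fintype G] [Finite X] :
    ∑ a : G, Nat.card (MulAction.fixedBy X a)
      = Nat.card (MulAction.orbitRel.Quotient G X) * Nat.card G := by
  rw [← Nat.card_sigma, Nat.card_congr (MulAction.sigmaFixedByEquivOrbitsProdGroup G X),
    Nat.card_prod]

/-- For a permutation of prime order dividing `p`:
`p * #orbits = #X + (p - 1) * #Fix`. -/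
theorem prime_mul_numOrbits {X : Type*} [Finite X] (π : Equiv.Perm X) (p : ℕ) (hp : p.Prime)
    (hπ : π ^ p = 1) :
    p * numOrbits π = Nat.card X + (p - 1) * Nat.card (MulAction.fixedBy X π) := by
  classical
  by_cases h1 : π = 1
  · subst h1
    rw [numOrbits_one]
    have hfix : Nat.card (MulAction.fixedBy X (1 : Equiv.Perm X)) = Nat.card X := by
      rw [MulAction.fixedBy_one_eq_univ]
      exact Nat.card_congr (Equiv.Set.univ X)
    rw [hfix]
    have hp1 : 1 ≤ p := hp.one_le
    obtain ⟨q, rfl⟩ : ∃ q, p = q + 1 := ⟨p - 1, by omega⟩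
    simp only [Nat.add_sub_cancel]
    ring
  · have hord : orderOf π = p := by
      have hdvd : orderOf π ∣ p := orderOf_dvd_of_pow_eq_one hπ
      rcases (Nat.dvd_prime hp).mp hdvd with h | h
      · exact absurd (orderOf_eq_one_iff.mp h) h1
      · exact h
    let _ : Fintype (Subgroup.zpowers π) := Fintype.ofFinite _
    have hB := sum_card_fixedBy_eq (G := Subgroup.zpowers π) (X := X)
    have hcard : Nat.card (Subgroup.zpowers π) = p := by
      rw [Nat.card_zpowers, hord]
    rw [hcard] at hB
    -- compute the sum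
    have hfix : ∀ a : Subgroup.zpowers π, a ≠ 1 →
        MulAction.fixedBy X a = MulAction.fixedBy X π := by
      rintro ⟨a, ha⟩ hne
      obtain ⟨k, rfl⟩ := Subgroup.mem_zpowers_iff.mp ha
      have hk : ¬ (p : ℤ) ∣ k := by
        intro hdvd
        apply hne
        ext1
        change π ^ k = 1
        obtain ⟨m, rfl⟩ := hdvd
        rw [zpow_mul, zpow_natCast, hπ, one_zpow]
      -- Bezout
      have hcop : IsCoprime (p : ℤ) k :=
        (Prime.coprime_iff_not_dvd (Nat.prime_iff_prime_int.mp hp)).mpr hk
      obtain ⟨u, v, huv⟩ := hcop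
      ext x
      change (π ^ k) x = x ↔ π x = x
      constructor
      · intro hx
        have h2 : ((π ^ k) ^ v) x = x :=
          Equiv.Perm.zpow_apply_eq_self_of_apply_eq_self hx v
        have h3 : (π ^ k) ^ v = π := by
          rw [← zpow_mul]
          have : k * v = 1 - u * p := by linarith
          have hp1 : π ^ (p : ℤ) = 1 := by rw [zpow_natCast, hπ]
          rw [this, zpow_sub, zpow_one, mul_comm u (p : ℤ), zpow_mul, hp1, one_zpow, inv_one,
            mul_one]
        rwa [h3] at h2
      · intro hx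
        exact Equiv.Perm.zpow_apply_eq_self_of_apply_eq_self hx k
    have hsum : ∑ a : Subgroup.zpowers π, Nat.card (MulAction.fixedBy X a)
        = Nat.card X + (p - 1) * Nat.card (MulAction.fixedBy X π) := by
      rw [← Finset.add_sum_erase Finset.univ _ (Finset.mem_univ (1 : Subgroup.zpowers π))]
      congr 1
      · rw [MulAction.fixedBy_one_eq_univ]
        exact Nat.card_congr (Equiv.Set.univ X)
      · rw [Finset.sum_congr rfl (fun a ha => by
          rw [hfix a (Finset.ne_of_mem_erase ha)] :
          ∀ a ∈ Finset.univ.erase (1 : Subgroup.zpowers π),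
            Nat.card (MulAction.fixedBy X a) = Nat.card (MulAction.fixedBy X π))]
        rw [Finset.sum_const, smul_eq_mul, Finset.card_erase_of_mem (Finset.mem_univ _),
          Finset.card_univ, ← Nat.card_eq_fintype_card, hcard]
    rw [hsum] at hB
    rw [hB]
    unfold numOrbits
    ring

end Fermat.Agent.S24.H66
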